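import Fermat.Statements.S09

/-!
Conditional wiring for S09 (Mazur: the Frey representation is irreducible).
`of_parts` takes the exact statements of S10, S11, S12, S13 as hypotheses and
produces the exact statement of S09.  No reserved name is cited.
-/

set_option autoImplicit false
open WeierstrassCurve WeierstrassCurve.Affine WeierstrassCurve.Affine.Point
open CuspForm ModularFormClass UpperHalfPlane
open FreyPackage

namespace Fermat.Agent.S09.helper669

/-- A prime `p ≥ 5` is one of `5, 7, 13`, or `11`, or at least `17`. -/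
theorem prime_cases {p : ℕ} (pp : p.Prime) (h5 : 5 ≤ p) :
    (p = 5 ∨ p = 7 ∨ p = 13) ∨ p = 11 ∨ 17 ≤ p := by
  rcases lt_or_ge p 17 with hlt | hge
  · interval_cases p <;> first | (exact absurd pp (by decide)) | simp
  · exact Or.inr (Or.inr hge)

/-- S09 from S10, S11, S12, S13 (stated as hypotheses). -/
theorem of_parts
    (h10 : ∀ (P : FreyPackage) (_ : P.p = 5 ∨ P.p = 7 ∨ P.p = 13),
      ¬ HasGaloisStableCofixedLine (K := AlgebraicClosure ℚ) ℚ P.freyCurve P.p)
    (h11 : ∀ (P : FreyPackage) (_ : P.p = 11),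
      ¬ HasGaloisStableCofixedLine (K := AlgebraicClosure ℚ) ℚ P.freyCurve P.p)
    (h12 : ∀ (P : FreyPackage) (_ : 17 ≤ P.p),
      ¬ HasGaloisStableCofixedLine (K := AlgebraicClosure ℚ) ℚ P.freyCurve P.p)
    (h13 : ∀ (P : FreyPackage)
      (_ : ¬ GaloisRepIsIrreducible (K := AlgebraicClosure ℚ) ℚ P.freyCurve P.p),
      HasGaloisStableCofixedLine (K := AlgebraicClosure ℚ) ℚ P.freyCurve P.p)
    (P : FreyPackage) :
    GaloisRepIsIrreducible (K := AlgebraicClosure ℚ) ℚ P.freyCurve P.p := by
  by_contra hred
  have hline := h13 P hred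
  rcases prime_cases P.pp P.hp5 with h | h | h
  · exact h10 P h hline
  · exact h11 P h hline
  · exact h12 P h hline

end Fermat.Agent.S09.helper669
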